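import Fermat.Agent.GAL.Tors.Dict.PlaceOf
import Fermat.Agent.S24.DefsB
import Fermat.Prelude.Def_ModularCurve_ArithmeticGalois

/-!
# S17 / UNR, leaf OO: the `q`-adic place `∞` of `FN N = Qbar(j(q^d) : d ∣ N) ⊆ Qbar((q))`;
it is fixed by the Galois action.
-/

set_option autoImplicit false

noncomputable section

namespace Fermat.Agent.S17.Unr

open AlgebraicCurve ModularCurve Fermat.Agent.S24

/-- the inclusion `FN N → Qbar((q))`. -/
def ooHom (N : ℕ) : FN N →+* LaurentSeries Kbar := (modularFunctionFieldBar N).val.toRingHom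

@[simp] theorem ooHom_apply (N : ℕ) (f : FN N) : ooHom N f = (f : LaurentSeries Kbar) := rfl

/-- `GAL.Tors.Dict.exists_place_of_hom (ooHom N) (jF N)`; the multiplier `M` is `1` because
`jF N` has order `-1` (search `order` of `jq` / `jF` in `S24/*`, `GAL/*`, e.g. `S24.JRational`, `S24.CuspExp`,
`DR/Conc/Basis.lean`): `-1 = M * ord`, `0 < M` gives `M = 1`. For `f = 0` both sides are `0`. -/
theorem exists_oo (N : ℕ) [NeZero N] : ∃ v : Place Kbar (FN N),
    v.toValuationSubring = ringOf (ooHom N) ∧
      ∀ f : FN N, v.ord f = (f : LaurentSeries Kbar).order := by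
  have hj : ((jF N : FN N) : LaurentSeries Kbar).order = -1 := by
    show (coeffEmb Kbar jq).order = -1
    have hne : coeffEmb Kbar jq ≠ 0 := by
      intro h0
      have h1 := congrArg (fun s : LaurentSeries Kbar => s.coeff (-1)) h0
      simp only [coeffEmb_coeff, coeff_jq_neg_one, map_one, HahnSeries.coeff_zero] at h1
      exact one_ne_zero h1
    apply le_antisymm
    · apply HahnSeries.order_le_of_coeff_ne_zero
      rw [coeffEmb_coeff, coeff_jq_neg_one, map_one]
      exact one_ne_zero
    · by_contra hlt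
      have hlt' : (coeffEmb Kbar jq).order < -1 := not_le.1 hlt
      have h1 := HahnSeries.coeff_order_eq_zero.not.mpr hne
      rw [coeffEmb_coeff, coeff_jq_of_lt hlt', map_zero] at h1
      exact h1 rfl
  obtain ⟨v, M, hM, hv, hord⟩ := Fermat.Agent.GAL.Tors.Dict.exists_place_of_hom (k := Kbar)
    (ooHom N) (jF N) (by
      show ((jF N : FN N) : LaurentSeries Kbar).order ≠ 0
      rw [hj]
      norm_num)
  have hj0 : jF N ≠ 0 := by
    intro h0
    rw [h0] at hj
    simp at hj
  have hM1 : M = 1 := by
    have h1 := hord (jF N) hj0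
    have h2 : ordOf (ooHom N) (jF N) = -1 := hj
    rw [h2] at h1
    have h3 : M ∣ 1 := ⟨-(v.ord (jF N)), by linarith⟩
    exact Int.eq_one_of_dvd_one hM.le h3
  refine ⟨v, hv, fun f => ?_⟩
  rcases eq_or_ne f 0 with rfl | hf
  · simp
  · have h1 := hord f hf
    rw [hM1, one_mul] at h1
    exact h1.symm

/-- The place `∞`. -/
def oo (N : ℕ) [NeZero N] : Place Kbar (FN N) := (exists_oo N).choose

theorem oo_toValuationSubring (N : ℕ) [NeZero N] :
    (oo N).toValuationSubring = ringOf (ooHom N) := (exists_oo N).choose_spec.1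

theorem oo_ord (N : ℕ) [NeZero N] (f : FN N) :
    (oo N).ord f = (f : LaurentSeries Kbar).order := (exists_oo N).choose_spec.2 f

/-- `coeffMap` of an injective ring homomorphism preserves the order (same support). -/
theorem order_coeffMap {R S : Type*} [CommRing R] [CommRing S] (φ : R →+* S)
    (hφ : Function.Injective φ) (x : LaurentSeries R) : (coeffMap φ x).order = x.order := by
  rcases eq_or_ne x 0 with rfl | hx
  · simp
  have hx' : coeffMap φ x ≠ 0 := by
    intro h0
    apply hx
    ext n
    have h1 := congrArg (fun s : LaurentSeries S => s.coeff n) h0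
    simp only [coeffMap_coeff, HahnSeries.coeff_zero] at h1
    exact hφ (by rw [h1, HahnSeries.coeff_zero, map_zero])
  apply le_antisymm
  · apply HahnSeries.order_le_of_coeff_ne_zero
    rw [coeffMap_coeff]
    intro h0
    exact HahnSeries.coeff_order_eq_zero.not.mpr hx (hφ (by rw [h0, map_zero]))
  · apply HahnSeries.order_le_of_coeff_ne_zero
    have := HahnSeries.coeff_order_eq_zero.not.mpr hx'
    rw [coeffMap_coeff] at this
    intro h0
    rw [h0, map_zero] at this
    exact this rfl

/-- `Place.ext`; `SemilinearAut.smul_toValuationSubring`,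
`ValuationSubring.mem_pointwise_smul_iff_inv_smul_mem`, `mem_ringOf`, `order_coeffMap`,
`coe_arithmeticGalois_smul`. -/
theorem smul_oo (N : ℕ) [NeZero N] (σ : Kbar ≃ₐ[ℚ] Kbar) :
    arithmeticGalois (L := Kbar) (modularFunctionFieldFull N) σ • oo N = oo N := by
  apply Place.ext
  rw [SemilinearAut.smul_toValuationSubring, oo_toValuationSubring]
  ext f
  rw [ValuationSubring.mem_pointwise_smul_iff_inv_smul_mem, mem_ringOf, mem_ringOf, ← map_inv]
  show 0 ≤ (coeffMap ((σ⁻¹ : Kbar ≃ₐ[ℚ] Kbar) : Kbar →+* Kbar) (f : LaurentSeries Kbar)).order ↔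
    0 ≤ (f : LaurentSeries Kbar).order
  rw [order_coeffMap _ (σ⁻¹ : Kbar ≃ₐ[ℚ] Kbar).injective]

end Fermat.Agent.S17.Unr
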