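import Fermat.Agent.S17.Unr.StabA
import Fermat.Agent.GAL.RED.CurveBasic
import Fermat.Agent.GAL.Tors.Desc.IsFF

/-!
# S17 / STAB, part B: every place, every divisor, every class in `JZero N` is fixed by
an open subgroup `Gal(Qbar / M)`, `M / ℚ` finite.
-/

set_option autoImplicit false

noncomputable section

namespace Fermat.Agent.S17.Unr

open AlgebraicCurve ModularCurve Fermat.Agent.S24 Fermat.Agent.Lib.RR Fermat.Agent.GAL.RED

/-- (ST2) general: a place `P` is the only pole of some function (`n` large: `ell (n • pt P) ≥ 2` by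
`Lib.RR.riemann_ineq`, so `L(n P)` contains a non-constant `f`; `f` has a pole
(`RED.mem_range_of_ord_nonneg`), which can only be `P`). -/
theorem exists_only_pole {K F : Type*} [Field K] [Field F] [Algebra K F] [Lib.RR.IsFF K F]
    [IsAlgClosed K] (P : Place K F) :
    ∃ f : F, P.ord f < 0 ∧ ∀ Q : Place K F, Q.ord f < 0 → Q = P := by
  classical
  set D : Divisor K F := (genusFF K F + 1) • pt P with hD
  have h1 := riemann_ineq D
  have hdeg : Divisor.degree D = (genusFF K F : ℤ) + 1 := by
    rw [hD, map_nsmul, degree_pt, deg_eq_one]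
    simp
  rw [hdeg, ell_zero] at h1
  have h2 : 2 ≤ ell D := by
    have : (2 : ℤ) ≤ ell D := by push_cast at h1; linarith
    exact_mod_cast this
  have h0 : (0 : Divisor K F) ≤ D := by
    rw [hD]
    exact nsmul_nonneg (by
      have := le_add_pt (0 : Divisor K F) P
      rwa [zero_add] at this) _
  have h1L : (1 : F) ∈ riemannRochSpace D := by
    apply L_mono h0
    have := algebraMap_mem_L_zero (K := K) (F := F) 1
    rwa [map_one] at this
  obtain ⟨f, hfL, hf⟩ : ∃ f ∈ riemannRochSpace D, f ∉ Set.range (algebraMap K F) := by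
    by_contra hcon
    push Not at hcon
    have hle : ell D ≤ 1 := by
      apply finrank_le_one (⟨1, h1L⟩ : riemannRochSpace D)
      rintro ⟨f, hf⟩
      obtain ⟨c, hc⟩ := hcon f hf
      refine ⟨c, Subtype.ext ?_⟩
      show c • (1 : F) = f
      rw [Algebra.smul_def, mul_one, hc]
    omega
  have hf0 : f ≠ 0 := by
    rintro rfl
    exact hf ⟨0, map_zero _⟩
  have honly : ∀ Q : Place K F, Q.ord f < 0 → Q = P := by
    intro Q hQ
    by_contra hne
    rcases (mem_riemannRochSpace_iff.1 hfL) Q with h | h
    · exact hf0 h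
    · have hDQ : D Q = 0 := by
        rw [hD, Finsupp.smul_apply, pt, Finsupp.single_apply, if_neg (fun h => hne h.symm),
          smul_zero]
      rw [hDQ] at h
      omega
  refine ⟨f, ?_, honly⟩
  by_contra hP
  push Not at hP
  apply hf
  apply mem_range_of_ord_nonneg
  intro Q
  by_contra hQ
  push Not at hQ
  have := honly Q hQ
  rw [this] at hQ
  omega

/-- (ST3) `f` from (ST2) (instance `GAL.Desc.isFF_FF_Kbar N`); if `σ f = f` then
`ord_{σ P} f = ord_{σ P} (σ f) = ord_P f < 0` (`SemilinearAut.ord_smul`), so `σ P = P`. -/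
theorem openFix_place (N : ℕ) [NeZero N] (P : Place Kbar (FN N)) :
    OpenFix fun σ => arithmeticGalois (L := Kbar) (modularFunctionFieldFull N) σ • P = P := by
  have : Lib.RR.IsFF Kbar (FN N) := GAL.Desc.isFF_FF_Kbar N
  obtain ⟨f, hf, honly⟩ := exists_only_pole P
  refine (openFix_elt N f).mono fun σ hσ => ?_
  apply honly
  have h1 := SemilinearAut.ord_smul (arithmeticGalois (L := Kbar) (modularFunctionFieldFull N) σ) P f
  have h2 : arithmeticGalois (L := Kbar) (modularFunctionFieldFull N) σ • f = f := hσ
  rw [h2] at h1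
  rw [h1]
  exact hf

/-- (ST4) `OpenFix.finset` on `D.support`; `g • D = D` by `Finsupp.ext` +
`SemilinearAut.divisor_smul_apply` (if `g` fixes all points of the support of `D`, then `g⁻¹ • w ∈ supp`
iff `w ∈ supp`), or `Finsupp.induction_linear` + `SemilinearAut.smul_single` directly. -/
theorem openFix_divisor (N : ℕ) [NeZero N] (D : Divisor Kbar (FN N)) :
    OpenFix fun σ => arithmeticGalois (L := Kbar) (modularFunctionFieldFull N) σ • D = D := by
  induction D using Finsupp.induction_linear with
  | zero => exact ⟨⊥, inferInstance, fun σ _ => smul_zero _⟩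
  | add D D' h h' =>
    exact (h.and h').mono fun σ hσ => by rw [smul_add, hσ.1, hσ.2]
  | single P n =>
    exact (openFix_place N P).mono fun σ hσ => by rw [SemilinearAut.smul_single, hσ]

/-- **STAB.** (`Pic0.mk_surjective`, `galois_smul_pic0_def`, `SemilinearAut.pic0_smul_mk`.) -/
theorem stab (N : ℕ) [NeZero N] (y : JZero N) :
    ∃ M : IntermediateField ℚ Kbar, FiniteDimensional ℚ M ∧
      ∀ σ ∈ M.fixingSubgroup, σ • y = y := by
  obtain ⟨D, rfl⟩ := Pic0.mk_surjective y
  refine (openFix_divisor N (D : Divisor Kbar (FN N))).mono fun σ hσ => ?_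
  rw [galois_smul_pic0_def, SemilinearAut.pic0_smul_mk]
  exact congrArg Pic0.mk (Subtype.ext hσ)

end Fermat.Agent.S17.Unr
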