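import Fermat.Agent.GAL.Hecke.ES

/-!
# S17 / UNR, leaf RD: for `σ` in the inertia group at `A`, a Kummer unit of the form `σ φ / φ` is an
`m`-th power (given `INJ N m A`).
-/

set_option autoImplicit false

noncomputable section

namespace Fermat.Agent.S17.Unr

open AlgebraicCurve ModularCurve Fermat.Agent.S24 Fermat.Agent.GAL Fermat.Agent.GAL.Hecke

/-- Copy of the proof of `GAL.Hecke.inertia_smul` (file `GAL/Hecke/ES.lean`), where the Kummer unit `u`
is replaced by an arbitrary unit `φ`: `φ = c P / Q` (`exists_normalise`), so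
`σ φ / φ = (σ c / c) (σ P * Q) / (σ Q * P)` and `red (σ P * Q) = red (σ Q * P) ≠ 0`
(`red_galA_of_inertia`); conclude by `mk_eq_zero_of_red` applied to the Kummer unit `⟨σ φ / φ, hφ⟩`
and `KV.mk_eq_zero_iff`. -/
theorem exists_pow_of_inertia (N m ℓ : ℕ) [NeZero N] (hm : 0 < m) (hℓ : ℓ.Prime) (hℓN : ¬ ℓ ∣ N)
    (A : ValuationSubring Kbar) (hA : A.LiesOverPrime ℓ) (hinj : INJ N m A)
    (σ : Kbar ≃ₐ[ℚ] Kbar) (hσ : σ ∈ A.inertiaSubgroupIn ℚ) (φ : (FN N)ˣ)
    (hφ : semilinearUnits (arithmeticGalois (L := Kbar) (modularFunctionFieldFull N) σ) φ * φ⁻¹ ∈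
      kummerUnits Kbar (FN N) m) :
    ∃ w : (FN N)ˣ, w ^ m =
      semilinearUnits (arithmeticGalois (L := Kbar) (modularFunctionFieldFull N) σ) φ * φ⁻¹ := by
  obtain ⟨τ, hτ, rfl⟩ := hσ
  obtain ⟨c, P, Q, hc, hP0, hQ0, hP, hQ, h⟩ :=
    exists_normalise N A hℓ hA hℓN (φ : FN N) φ.ne_zero
  generalize hσdef : ((A.decompositionSubgroup ℚ).subtype τ : Kbar ≃ₐ[ℚ] Kbar) = σ at hφ ⊢
  have hσdef' : (τ : Kbar ≃ₐ[ℚ] Kbar) = σ := hσdef
  rw [← KV.mk_eq_zero_iff ⟨_, hφ⟩]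
  have hσc : σ c ≠ 0 := (map_ne_zero _).2 hc
  have h2 := es_conj_rel A τ h
  rw [hσdef'] at h2
  refine mk_eq_zero_of_red hm A hinj _ (σ c / c) (div_ne_zero hσc hc)
    (galA A τ P * Q) (galA A τ Q * P) ?_ ?_ ?_ ?_ ?_
  · rw [map_mul]
    exact mul_mem (es_incl_galA_mem A τ hP) hQ
  · rw [map_mul]
    exact mul_mem (es_incl_galA_mem A τ hQ) hP
  · rw [map_mul, map_mul, red_galA_of_inertia A τ hτ, red_galA_of_inertia A τ hτ, mul_comm]
  · rw [map_mul, red_galA_of_inertia A τ hτ]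
    exact mul_ne_zero hQ0 hP0
  · have hU : ((φ : FN N) : LaurentSeries Kbar) ≠ 0 := by
      intro h0
      exact φ.ne_zero (Subtype.ext h0)
    have hC : algebraMap Kbar (LaurentSeries Kbar) c ≠ 0 := (map_ne_zero _).2 hc
    have hconj : (((semilinearUnits (arithmeticGalois (L := Kbar) (modularFunctionFieldFull N) σ) φ :
        (FN N)ˣ) : FN N) : LaurentSeries Kbar) =
        coeffMap (σ : Kbar →+* Kbar) ((φ : FN N) : LaurentSeries Kbar) := rfl
    show (((semilinearUnits (arithmeticGalois (L := Kbar) (modularFunctionFieldFull N) σ) φ * φ⁻¹ :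
        (FN N)ˣ) : FN N) : LaurentSeries Kbar) * _ = _
    rw [Units.val_mul, Units.val_inv_eq_inv_val,
      IntermediateField.coe_mul, IntermediateField.coe_inv, hconj, map_mul, map_mul,
      map_div₀]
    set U := ((φ : FN N) : LaurentSeries Kbar) with hUdef
    have h3 : U⁻¹ * incl A P = (algebraMap Kbar (LaurentSeries Kbar) c)⁻¹ * incl A Q := by
      rw [inv_mul_eq_iff_eq_mul₀ hU, ← mul_assoc, mul_comm U, mul_assoc, h, ← mul_assoc,
        inv_mul_cancel₀ hC, one_mul]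
    calc coeffMap (σ : Kbar →+* Kbar) U * U⁻¹ * (incl A (galA A τ Q) * incl A P)
        = (coeffMap (σ : Kbar →+* Kbar) U * incl A (galA A τ Q)) * (U⁻¹ * incl A P) := by ring
      _ = _ := by
        rw [h3, h2, div_eq_mul_inv]
        ring

end Fermat.Agent.S17.Unr
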