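import Fermat.Agent.S17.Unr.Kummer
import Fermat.Agent.S17.Unr.Infty
import Fermat.Agent.S17.Unr.Red
import Fermat.Agent.S17.Unr.Stab
import Fermat.Agent.GAL.KL.All

/-!
# S17 / UNR: division points are unramified outside `m N`.
-/

set_option autoImplicit false

noncomputable section

namespace Fermat.Agent.S17.Unr

open AlgebraicCurve ModularCurve Fermat.Agent.S24 Fermat.Agent.GAL Fermat.Agent.GAL.Hecke

/-- **UNR** (general `m`). -/
theorem unr_general (N m ℓ : ℕ) [NeZero N] (hm : 0 < m) (hℓ : ℓ.Prime) (hℓN : ¬ ℓ ∣ N)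
    (hℓm : ¬ ℓ ∣ m) (A : ValuationSubring Kbar) (hA : A.LiesOverPrime ℓ)
    (σ : Kbar ≃ₐ[ℚ] Kbar) (hσ : σ ∈ A.inertiaSubgroupIn ℚ) (y : JZero N)
    (h : σ • (m • y) = m • y) : σ • y = y := by
  haveI : Lib.RR.IsFF Kbar (FN N) := Fermat.Agent.GAL.Desc.isFF_FF_Kbar N
  have hinj : INJ N m A := KL.klAll N (NeZero.ne N) A m (natCast_residue_ne_zero A hℓ hA hℓN)
    (natCast_residue_ne_zero A hℓ hA hℓm)
  obtain ⟨φ, hφ, hφ'⟩ := exists_phi (K := Kbar) (F := FN N) m hm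
    (arithmeticGalois (L := Kbar) (modularFunctionFieldFull N) σ) (oo N) (smul_oo N σ) y h
  exact hφ' (exists_pow_of_inertia N m ℓ hm hℓ hℓN A hA hinj σ hσ φ hφ)

/-- **UNR.** -/
theorem unr (N ℓ : ℕ) [NeZero N] (hℓ : ℓ.Prime) (hℓN : ¬ ℓ ∣ 2 * N)
    (A : ValuationSubring Kbar) (hA : A.LiesOverPrime ℓ)
    (σ : Kbar ≃ₐ[ℚ] Kbar) (hσ : σ ∈ A.inertiaSubgroupIn ℚ) (y : JZero N)
    (h : σ • (2 • y) = 2 • y) : σ • y = y :=
  unr_general N 2 ℓ (by norm_num) hℓ (fun h' => hℓN (h'.mul_left 2))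
    (fun h' => hℓN (h'.mul_right N)) A hA σ hσ y h

end Fermat.Agent.S17.Unr
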