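import Fermat.Agent.GAL.RED.CurveBasic
import Fermat.Prelude.Def_AlgebraicCurve_BaseChangeGalois

/-!
# S17 / UNR, leaf MD: a class fixed by a semilinear automorphism `g` (which fixes a place `P₀`) is
represented by a `g`-stable divisor.

`K` algebraically closed, `F / K` a function field (`Lib.RR.IsFF`).  Trick: for `E` of degree `0` take
`e` minimal with `ℓ(E + e P₀) ≥ 1`; then `ℓ = 1`, so the effective divisor `D ∼ E + e P₀` is UNIQUE
in its class.
-/

set_option autoImplicit false

noncomputable section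

namespace Fermat.Agent.S17.Unr

open AlgebraicCurve Fermat.Agent.Lib.RR Fermat.Agent.GAL.RED

variable {K F : Type*} [Field K] [Field F] [Algebra K F] [IsFF K F] [IsAlgClosed K]

/-- (M1) `e := Nat.find` of `0 < ell (E + e • pt P₀)` (nonempty by Riemann's inequality
`Lib.RR.riemann_ineq` / `ell_eq_of_lt_degree'`, `degree_pt`, `RED.deg_eq_one`).
If `e = 0`: `0 < ell E`, `deg E = 0`: `ell E ≤ 1` (`Lib.RR`: search `ell_le`, `ell_le_degree_add_one`,
or: `f, f' ∈ L(E)` nonzero have `div f = div f' = -E` (effective of degree 0 is 0), so `f/f'` is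
constant: `RED.mem_range_of_ord_nonneg`).  If `e = e' + 1`: `ell (E + e' P₀) = 0` by minimality and
`ell (D + pt P₀) ≤ ell D + deg P₀ = ell D + 1` (`Lib.RR`: search `ell_add_pt_le`). -/
theorem exists_ell_eq_one (P₀ : Place K F) (E : Divisor K F) (hE : Divisor.degree E = 0) :
    ∃ e : ℕ, ell (E + e • pt P₀) = 1 := by
  classical
  have hdeg : ∀ e : ℕ, Divisor.degree (E + e • pt P₀) = e := by
    intro e
    rw [map_add, hE, map_nsmul, degree_pt, deg_eq_one]
    simp
  have hex : ∃ e : ℕ, 0 < ell (E + e • pt P₀) := by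
    refine ⟨genusFF K F, ?_⟩
    obtain ⟨f, hf, hfD⟩ := exists_effective (D := E + genusFF K F • pt P₀) (by rw [hdeg])
    exact ell_pos_iff.2 ⟨f, hf, mem_L_iff.2 (Or.inr hfD)⟩
  refine ⟨Nat.find hex, ?_⟩
  have hpos := Nat.find_spec hex
  rcases Nat.eq_zero_or_pos (Nat.find hex) with h0 | h0
  · have h1 := ell_le_degree_add (D := E + Nat.find hex • pt P₀) (by rw [hdeg]; positivity)
    rw [hdeg, h0, ell_zero] at h1
    rw [h0] at hpos ⊢
    have h2 : ell (E + 0 • pt P₀) ≤ 1 := by exact_mod_cast h1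
    omega
  · obtain ⟨e', he'⟩ : ∃ e', Nat.find hex = e' + 1 := ⟨Nat.find hex - 1, by omega⟩
    have hmin : ¬ 0 < ell (E + e' • pt P₀) := Nat.find_min hex (by omega)
    have h1 := ell_add_pt_le (E + e' • pt P₀) P₀
    rw [deg_eq_one, add_assoc, ← succ_nsmul] at h1
    rw [he'] at hpos ⊢
    omega

/-- (M2) from (M1): `0 ≠ f ∈ L(E + e P₀)`, `D := divOf f + E + e • pt P₀`;
`ell D = ell (E + e P₀)` (linear equivalence: `Lib.RR`: search `ell_add_divOf`, `ell_divOf_add`, or the
linear equivalence `u ↦ u * f` of the two Riemann-Roch spaces). -/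
theorem exists_effective_rep (P₀ : Place K F) (E : Divisor K F) (hE : Divisor.degree E = 0) :
    ∃ (e : ℕ) (D : Divisor K F), 0 ≤ D ∧ ell D = 1 ∧
      (D - e • pt P₀) - E ∈ Divisor.principal (K := K) (F := F) := by
  obtain ⟨e, he⟩ := exists_ell_eq_one P₀ E hE
  obtain ⟨f, hf, hfD⟩ := ell_pos_iff.1 (by rw [he]; exact one_pos : 0 < ell (E + e • pt P₀))
  refine ⟨e, (E + e • pt P₀) + divOf f, ?_, ?_, ?_⟩
  · rcases mem_L_iff.1 hfD with h | h
    · exact absurd h hf
    · rwa [add_comm] at h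
  · rw [ell_add_divOf _ hf, he]
  · refine ⟨f, hf, fun v => ?_⟩
    have h1 : E + e • pt P₀ + divOf f - e • pt P₀ - E = divOf f := by abel
    rw [h1, divOf_apply]

/-- (M3) uniqueness: `D' - D = div h`, `D' ≥ 0` gives `h ∈ L(D)`; `RED.mem_range_of_ell_eq_one`:
`h` is constant, so `div h = 0` (`RED.ord_algebraMap`). -/
theorem eq_of_principal_sub {D D' : Divisor K F} (h0 : 0 ≤ D) (h1 : ell D = 1) (h0' : 0 ≤ D')
    (h : D' - D ∈ Divisor.principal (K := K) (F := F)) : D' = D := by
  obtain ⟨f, hf, hfD⟩ := h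
  have hfL : f ∈ riemannRochSpace D := by
    rw [mem_riemannRochSpace_iff]
    intro v
    right
    rw [← hfD v, Finsupp.sub_apply]
    have := h0' v
    simp only [Finsupp.coe_zero, Pi.zero_apply] at this
    omega
  obtain ⟨c, rfl⟩ := mem_range_of_ell_eq_one h0 h1 hfL
  ext v
  have := hfD v
  rw [ord_algebraMap, Finsupp.sub_apply] at this
  omega

/-- (M4) `x = [E₀]`; `(e, D)` from (M2); `g • D ≥ 0` (`SemilinearAut.divisor_smul_apply`);
`g • D - D = (g • (D - e P₀ - E₀)) - (D - e P₀ - E₀) + (g • E₀ - E₀)` is principal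
(`SemilinearAut.smul_mem_principal`, `smul_single`, `hP₀`; `g • E₀ - E₀` is principal because
`g • x = x`: `SemilinearAut.pic0_smul_mk`, `QuotientAddGroup.eq`); (M3) gives `g • D = D`.
Take `E := D - e • pt P₀`. -/
theorem exists_fixed_rep (g : SemilinearAut K F) (P₀ : Place K F) (hP₀ : g • P₀ = P₀)
    (x : Pic0 K F) (hx : g • x = x) :
    ∃ E : Divisor.degZero (K := K) (F := F), Pic0.mk E = x ∧ g • (E : Divisor K F) = E := by
  obtain ⟨E₀, rfl⟩ := Pic0.mk_surjective x
  obtain ⟨e, D, hD0, hD1, hDE⟩ := exists_effective_rep P₀ (E₀ : Divisor K F) E₀.2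
  have hgE : g • (E₀ : Divisor K F) - E₀ ∈ Divisor.principal (K := K) (F := F) := by
    rw [SemilinearAut.pic0_smul_mk] at hx
    have h1 := (QuotientAddGroup.eq (s := (Divisor.principal (K := K) (F := F)).addSubgroupOf
      (Divisor.degZero (K := K) (F := F)))).1 hx.symm
    rw [AddSubgroup.mem_addSubgroupOf] at h1
    have h2 : ((-E₀ + SemilinearAut.degZeroSMulHom g E₀ : Divisor.degZero (K := K) (F := F)) :
        Divisor K F) = g • (E₀ : Divisor K F) - E₀ := by
      rw [AddSubgroup.coe_add, AddSubgroup.coe_neg, SemilinearAut.coe_degZeroSMulHom]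
      abel
    rwa [h2] at h1
  have hgD0 : 0 ≤ g • D := by
    intro v
    rw [SemilinearAut.divisor_smul_apply]
    exact hD0 _
  have hgpt : g • (e • pt P₀) = e • pt P₀ := by
    rw [smul_comm, SemilinearAut.smul_single, hP₀]
  have hgD : g • D = D := by
    apply eq_of_principal_sub hD0 hD1 hgD0
    have h1 := SemilinearAut.smul_mem_principal g hDE
    have h2 : g • D - D = g • (D - e • pt P₀ - (E₀ : Divisor K F)) -
        (D - e • pt P₀ - (E₀ : Divisor K F)) + (g • (E₀ : Divisor K F) - E₀) := by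
      rw [smul_sub, smul_sub, hgpt]
      abel
    rw [h2]
    exact add_mem (sub_mem h1 hDE) hgE
  have hdeg : D - e • pt P₀ ∈ Divisor.degZero (K := K) (F := F) := by
    obtain ⟨f, hf, hfD⟩ := hDE
    have h1 : D - e • pt P₀ - (E₀ : Divisor K F) = divOf f := by
      ext v
      rw [hfD v, divOf_apply]
    have h2 : D - e • pt P₀ = divOf f + (E₀ : Divisor K F) := by rw [← h1]; abel
    rw [Divisor.mem_degZero, h2, map_add, degree_divOf, zero_add]
    exact E₀.2
  refine ⟨⟨D - e • pt P₀, hdeg⟩, ?_, ?_⟩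
  · refine (QuotientAddGroup.eq (s := (Divisor.principal (K := K) (F := F)).addSubgroupOf
      (Divisor.degZero (K := K) (F := F)))).2 ?_
    rw [AddSubgroup.mem_addSubgroupOf]
    have h2 : ((-(⟨D - e • pt P₀, hdeg⟩ : Divisor.degZero (K := K) (F := F)) + E₀ :
        Divisor.degZero (K := K) (F := F)) : Divisor K F) =
        -(D - e • pt P₀ - (E₀ : Divisor K F)) := by
      rw [AddSubgroup.coe_add, AddSubgroup.coe_neg]
      show -(D - e • pt P₀) + (E₀ : Divisor K F) = _
      generalize e • pt P₀ = X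
      abel
    rw [h2]
    exact neg_mem hDE
  · show g • (D - e • pt P₀) = D - e • pt P₀
    rw [smul_sub, hgD, hgpt]

end Fermat.Agent.S17.Unr
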