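import Fermat.Agent.S17.Unr.MinDiv
import Fermat.Agent.GAL.Model

/-!
# S17 / UNR, leaf KU: the Kummer unit `g φ / φ` attached to `y` with `g (m y) = m y`.
-/

set_option autoImplicit false

noncomputable section

namespace Fermat.Agent.S17.Unr

open AlgebraicCurve Fermat.Agent.Lib.RR Fermat.Agent.GAL.RED Fermat.Agent.GAL

variable {K F : Type*} [Field K] [Field F] [Algebra K F] [IsFF K F] [IsAlgClosed K]

/-- `y = [E_y]`, `x := m • y = [E_x]` with `g • E_x = E_x` (`exists_fixed_rep`).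
`m • E_y - E_x` is principal `= div φ` (`QuotientAddGroup.eq`, `Divisor.mem_principal`).
Apply `g` (`SemilinearAut.ord_smul`, `divisor_smul_apply`): `m • (g • E_y) - E_x = div (g φ)`.  Hence
`ord_P (g φ / φ) = m * (g • E_y - E_y) P` for all `P`: a Kummer unit.  If `g φ / φ = w ^ m` then
`m * ord_P w = m * (g • E_y - E_y) P`, so `g • E_y - E_y = div w` is principal and `g • y = y`
(`SemilinearAut.pic0_smul_mk`). -/
theorem exists_phi (m : ℕ) (hm : 0 < m) (g : SemilinearAut K F) (P₀ : Place K F)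
    (hP₀ : g • P₀ = P₀) (y : Pic0 K F) (hy : g • (m • y) = m • y) :
    ∃ φ : Fˣ, semilinearUnits g φ * φ⁻¹ ∈ kummerUnits K F m ∧
      ((∃ w : Fˣ, w ^ m = semilinearUnits g φ * φ⁻¹) → g • y = y) := by
  obtain ⟨Ey, rfl⟩ := Pic0.mk_surjective y
  obtain ⟨Ex, hEx, hgEx⟩ := exists_fixed_rep g P₀ hP₀ (m • Pic0.mk Ey) hy
  -- `m • E_y - E_x` is principal
  have hprin : m • (Ey : Divisor K F) - Ex ∈ Divisor.principal (K := K) (F := F) := by
    have h0 : Pic0.mk Ex = Pic0.mk (m • Ey) := by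
      rw [hEx]
      rfl
    have h1 := (QuotientAddGroup.eq (s := (Divisor.principal (K := K) (F := F)).addSubgroupOf
      (Divisor.degZero (K := K) (F := F)))).1 h0
    rw [AddSubgroup.mem_addSubgroupOf] at h1
    have h2 : ((-Ex + m • Ey : Divisor.degZero (K := K) (F := F)) : Divisor K F) =
        m • (Ey : Divisor K F) - Ex := by
      rw [AddSubgroup.coe_add, AddSubgroup.coe_neg, AddSubgroup.coe_nsmul]
      abel
    rwa [h2] at h1
  obtain ⟨f, hf, hfD⟩ := hprin
  have hfD' : ∀ v : Place K F, (m : ℤ) * (Ey : Divisor K F) v - (Ex : Divisor K F) v = v.ord f := by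
    intro v
    rw [← hfD v, Finsupp.sub_apply, Finsupp.smul_apply, nsmul_eq_mul]
  have hgf : ∀ v : Place K F,
      (m : ℤ) * (g • (Ey : Divisor K F)) v - (Ex : Divisor K F) v = v.ord (g • f) := by
    intro v
    have h1 := SemilinearAut.ord_smul g (g⁻¹ • v) f
    rw [smul_inv_smul] at h1
    rw [h1, ← hfD' (g⁻¹ • v), SemilinearAut.divisor_smul_apply]
    have h2 : (Ex : Divisor K F) (g⁻¹ • v) = (g • (Ex : Divisor K F)) v :=
      (SemilinearAut.divisor_smul_apply g _ v).symm
    rw [h2, hgEx]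
  have hgf0 : g • f ≠ 0 := by simpa using hf
  let φ : Fˣ := Units.mk0 f hf
  have hord : ∀ v : Place K F, v.ord ((semilinearUnits g φ * φ⁻¹ : Fˣ) : F) =
      (m : ℤ) * ((g • (Ey : Divisor K F)) v - (Ey : Divisor K F) v) := by
    intro v
    rw [Units.val_mul, Units.val_inv_eq_inv_val, coe_semilinearUnits]
    show v.ord (g • f * f⁻¹) = _
    rw [v.ord_mul hgf0 (inv_ne_zero hf), v.ord_inv, ← hgf v, ← hfD' v]
    ring
  refine ⟨φ, fun v => ?_, ?_⟩
  · rw [hord v]
    exact dvd_mul_right _ _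
  · rintro ⟨w, hw⟩
    rw [SemilinearAut.pic0_smul_mk]
    refine ((QuotientAddGroup.eq (s := (Divisor.principal (K := K) (F := F)).addSubgroupOf
      (Divisor.degZero (K := K) (F := F)))).2 ?_).symm
    rw [AddSubgroup.mem_addSubgroupOf]
    have h2 : ((-Ey + SemilinearAut.degZeroSMulHom g Ey : Divisor.degZero (K := K) (F := F)) :
        Divisor K F) = g • (Ey : Divisor K F) - Ey := by
      rw [AddSubgroup.coe_add, AddSubgroup.coe_neg, SemilinearAut.coe_degZeroSMulHom]
      abel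
    rw [h2]
    refine ⟨(w : F), w.ne_zero, fun v => ?_⟩
    have h3 := hord v
    rw [← hw, Units.val_pow_eq_pow_val, ord_pow] at h3
    have hm' : (m : ℤ) ≠ 0 := by exact_mod_cast hm.ne'
    rw [Finsupp.sub_apply]
    exact (mul_left_cancel₀ hm' h3).symm

end Fermat.Agent.S17.Unr
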