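import Fermat.Agent.S24.DefsB
import Fermat.Prelude.Def_ModularCurve_ArithmeticGalois

/-!
# S17 / STAB, part A: every element of `FN N` is fixed by an open subgroup `Gal(Qbar / M)`,
`M / ℚ` finite.
-/

set_option autoImplicit false

noncomputable section

namespace Fermat.Agent.S17.Unr

open AlgebraicCurve ModularCurve Fermat.Agent.S24

/-- "fixed by an open subgroup". -/
def OpenFix (p : (Kbar ≃ₐ[ℚ] Kbar) → Prop) : Prop :=
  ∃ M : IntermediateField ℚ Kbar, FiniteDimensional ℚ M ∧ ∀ σ ∈ M.fixingSubgroup, p σ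

/-- compositum `M ⊔ M'` (`IntermediateField.finiteDimensional_sup`,
`IntermediateField.fixingSubgroup_antitone` / `mem_fixingSubgroup_iff`). -/
theorem OpenFix.and {p p' : (Kbar ≃ₐ[ℚ] Kbar) → Prop} (h : OpenFix p) (h' : OpenFix p') :
    OpenFix fun σ => p σ ∧ p' σ := by
  obtain ⟨M, hM, hσ⟩ := h
  obtain ⟨M', hM', hσ'⟩ := h'
  refine ⟨M ⊔ M', IntermediateField.finiteDimensional_sup M M', fun σ hs => ⟨?_, ?_⟩⟩
  · apply hσ
    rw [IntermediateField.mem_fixingSubgroup_iff] at hs ⊢
    exact fun x hx => hs x ((le_sup_left : M ≤ M ⊔ M') hx)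
  · apply hσ'
    rw [IntermediateField.mem_fixingSubgroup_iff] at hs ⊢
    exact fun x hx => hs x ((le_sup_right : M' ≤ M ⊔ M') hx)

theorem OpenFix.mono {p p' : (Kbar ≃ₐ[ℚ] Kbar) → Prop} (h : OpenFix p)
    (hpp : ∀ σ, p σ → p' σ) : OpenFix p' := by
  obtain ⟨M, hM, hσ⟩ := h
  exact ⟨M, hM, fun σ hs => hpp σ (hσ σ hs)⟩

/-- induction on the finset with `OpenFix.and` (empty: `M = ⊥`). -/
theorem OpenFix.finset {ι : Type*} (s : Finset ι) {p : ι → (Kbar ≃ₐ[ℚ] Kbar) → Prop}
    (h : ∀ i ∈ s, OpenFix (p i)) : OpenFix fun σ => ∀ i ∈ s, p i σ := by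
  classical
  induction s using Finset.induction_on with
  | empty =>
    exact ⟨⊥, inferInstance, fun σ _ i hi => absurd hi (Finset.notMem_empty i)⟩
  | insert a s ha ih =>
    have h1 := h a (Finset.mem_insert_self a s)
    have h2 := ih (fun i hi => h i (Finset.mem_insert_of_mem hi))
    refine (h1.and h2).mono fun σ hσ i hi => ?_
    rcases Finset.mem_insert.1 hi with rfl | hi
    · exact hσ.1
    · exact hσ.2 i hi

/-- `M = ℚ⟮a⟯` (`IntermediateField.adjoin.finiteDimensional`, `a` is integral over `ℚ`: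
`Algebra.IsIntegral.isIntegral`). -/
theorem openFix_const (a : Kbar) : OpenFix fun σ => σ a = a := by
  refine ⟨IntermediateField.adjoin ℚ {a},
    IntermediateField.adjoin.finiteDimensional
      ((AlgebraicClosure.isAlgebraic ℚ).isAlgebraic a).isIntegral, fun σ hs => ?_⟩
  rw [IntermediateField.mem_fixingSubgroup_iff] at hs
  exact hs a (IntermediateField.mem_adjoin_simple_self ℚ a)

/-- (ST1) `Subfield.closure_induction` on `mem_laurentBaseChange_iff` exactly as in the Prelude proof of
`coeffMap_mem_laurentBaseChange`: constants by `openFix_const` + `coeffMap_algebraMap`, elements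
`coeffEmb` by `coeffMap_coeffEmb` (fixed by everything), sums/products/inverses by `OpenFix.and`. -/
theorem openFix_series (N : ℕ) (x : LaurentSeries Kbar) (hx : x ∈ modularFunctionFieldBar N) :
    OpenFix fun σ => coeffMap (σ : Kbar →+* Kbar) x = x := by
  rw [mem_laurentBaseChange_iff] at hx
  induction hx using Subfield.closure_induction with
  | mem y hy =>
      rcases hy with ⟨a, rfl⟩ | ⟨z, hz, rfl⟩
      · refine (openFix_const a).mono fun σ hσ => ?_
        rw [coeffMap_algebraMap]
        exact congrArg _ hσ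
      · exact ⟨⊥, inferInstance, fun σ _ => coeffMap_coeffEmb σ z⟩
  | one => exact ⟨⊥, inferInstance, fun σ _ => map_one _⟩
  | add x y _ _ hx hy =>
      exact (hx.and hy).mono fun σ hσ => by rw [map_add, hσ.1, hσ.2]
  | neg x _ hx => exact hx.mono fun σ hσ => by rw [map_neg, hσ]
  | inv x _ hx => exact hx.mono fun σ hσ => by rw [map_inv₀, hσ]
  | mul x y _ _ hx hy =>
      exact (hx.and hy).mono fun σ hσ => by rw [map_mul, hσ.1, hσ.2]

theorem openFix_elt (N : ℕ) (f : FN N) :
    OpenFix fun σ => arithmeticRingAut (modularFunctionFieldFull N) σ f = f :=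
  (openFix_series N f f.2).mono fun _ h => Subtype.ext h

end Fermat.Agent.S17.Unr
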